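import Mathlib

/-!
# Degree and norm formula from a finite family of distinct embeddings

Pure field theory (Mathlib only).  Given fields `k ⊆ F`, a field `L`, pairwise distinct
`k`-embeddings `σ i : F → L` (`i : ι`, finite), and a subring `R` of `F` generating `F` over `k`
such that `∑ i, σ i a ∈ k` for all `a ∈ R`, we show `[F : k] = card ι`, that the `σ i` are all
the `k`-embeddings `F → L`, and the norm / trace / characteristic polynomial formulas.
A wrapper treats the case `k = K⟮j⟯` with `σ i` only `K`-linear and agreeing on `j`.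
-/

set_option linter.style.haveILetI false

namespace Fermat.Agent.S24_helper66

open Polynomial Finset IntermediateField

section Newton

variable {L : Type*} [Field L] [CharZero L] {ι : Type*} [Fintype ι]

/-- Newton: if all power sums of a finite family lie in a subfield (char 0), so do all
elementary symmetric functions. -/
theorem esymm_mem_of_psum_mem (T : Subfield L) (x : ι → L)
    (h : ∀ s : ℕ, 0 < s → ∑ i, x i ^ s ∈ T) (m : ℕ) :
    (univ.val.map x).esymm m ∈ T := by
  induction m using Nat.strong_induction_on with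
  | _ m ih =>
    rcases Nat.eq_zero_or_pos m with rfl | hm
    · have : (univ.val.map x).esymm 0 = 1 := by
        simp [Multiset.esymm, Multiset.powersetCard_zero_left]
      rw [this]; exact T.one_mem
    · have key := congrArg (MvPolynomial.aeval (R := L) x) (MvPolynomial.mul_esymm_eq_sum ι L m)
      simp only [map_mul, map_natCast, map_pow, map_neg, map_one, map_sum,
        MvPolynomial.aeval_esymm_eq_multiset_esymm] at key
      have hm0 : (m : L) ≠ 0 := Nat.cast_ne_zero.mpr hm.ne'
      have hrhs : (-1 : L) ^ (m + 1) * ∑ a ∈ antidiagonal m with a.1 < m,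
          (-1) ^ a.1 * (univ.val.map x).esymm a.1 *
            MvPolynomial.aeval x (MvPolynomial.psum ι L a.2) ∈ T := by
        refine T.mul_mem (T.pow_mem (T.neg_mem T.one_mem) _) (T.sum_mem fun a ha => ?_)
        rw [mem_filter, HasAntidiagonal.mem_antidiagonal] at ha
        refine T.mul_mem (T.mul_mem (T.pow_mem (T.neg_mem T.one_mem) _) (ih _ ha.2)) ?_
        have : MvPolynomial.aeval x (MvPolynomial.psum ι L a.2) = ∑ i, x i ^ a.2 := by
          simp [MvPolynomial.psum]
        rw [this]
        exact h _ (by omega)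
      rw [← key] at hrhs
      have : (univ.val.map x).esymm m = (m : L)⁻¹ * ((m : L) * (univ.val.map x).esymm m) := by
        field_simp
      rw [this]
      exact T.mul_mem (T.inv_mem (natCast_mem T m)) hrhs

/-- the coefficients of `∏ (X - x i)` lie in a subfield containing all power sums -/
theorem coeff_prod_X_sub_C_mem_of_psum_mem (T : Subfield L) (x : ι → L)
    (h : ∀ s : ℕ, 0 < s → ∑ i, x i ^ s ∈ T) (m : ℕ) :
    (∏ i, (X - C (x i))).coeff m ∈ T := by
  have hprod : (∏ i, (X - C (x i))) = ((univ.val.map x).map fun t => X - C t).prod := by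
    rw [Multiset.map_map]; rfl
  have hcard : Multiset.card (univ.val.map x) = Fintype.card ι := by simp
  rcases le_or_gt m (Fintype.card ι) with hm | hm
  · rw [hprod, Multiset.prod_X_sub_C_coeff _ (by rw [hcard]; exact hm)]
    exact T.mul_mem (T.pow_mem (T.neg_mem T.one_mem) _) (esymm_mem_of_psum_mem T x h _)
  · rw [coeff_eq_zero_of_natDegree_lt]
    · exact T.zero_mem
    · rw [hprod, natDegree_multiset_prod_X_sub_C_eq_card, hcard]; exact hm

end Newton

section Lift

variable {k L : Type*} [Field k] [Field L] [Algebra k L] [CharZero L] {ι : Type*} [Fintype ι]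

/-- a monic polynomial over `k` of degree `card ι` lifting `∏ (X - x i)` -/
theorem exists_monic_lift_of_psum_mem (x : ι → L)
    (h : ∀ s : ℕ, 0 < s → ∑ i, x i ^ s ∈ (algebraMap k L).range) :
    ∃ p : k[X], p.Monic ∧ p.natDegree = Fintype.card ι ∧
      p.map (algebraMap k L) = ∏ i, (X - C (x i)) := by
  have hmem : ∀ m, (∏ i, (X - C (x i))).coeff m ∈ (algebraMap k L).fieldRange :=
    coeff_prod_X_sub_C_mem_of_psum_mem _ x (fun s hs => by
      obtain ⟨c, hc⟩ := h s hs
      exact ⟨c, hc⟩)
  have hlifts : (∏ i, (X - C (x i))) ∈ Polynomial.lifts (algebraMap k L) :=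
    (Polynomial.lifts_iff_coeff_lifts _).mpr fun m => by
      obtain ⟨c, hc⟩ := hmem m
      exact ⟨c, hc⟩
  have hmonic : (∏ i, (X - C (x i))).Monic := monic_prod_of_monic _ _ fun i _ => monic_X_sub_C _
  obtain ⟨p, hp, hdeg, hpm⟩ := Polynomial.lifts_and_natDegree_eq_and_monic hlifts hmonic
  refine ⟨p, hpm, ?_, hp⟩
  rw [hdeg, natDegree_prod_of_monic _ _ fun i _ => monic_X_sub_C _]
  simp

end Lift


section Bounded

variable {k F : Type*} [Field k] [Field F] [Algebra k F] [CharZero k]

/-- a field extension in characteristic zero all of whose elements are algebraic of degree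
`≤ n` is finite of degree `≤ n` -/
theorem finiteDimensional_of_natDegree_minpoly_le (n : ℕ)
    (hint : ∀ f : F, IsIntegral k f) (hdeg : ∀ f : F, (minpoly k f).natDegree ≤ n) :
    FiniteDimensional k F ∧ Module.finrank k F ≤ n := by
  have : Algebra.IsAlgebraic k F := ⟨fun f => (hint f).isAlgebraic⟩
  -- choose `α` of maximal degree
  set g : F → ℕ := fun f => (minpoly k f).natDegree with hg
  have hbdd : BddAbove (Set.range g) := ⟨n, by rintro _ ⟨f, rfl⟩; exact hdeg f⟩
  obtain ⟨α, hα⟩ := Nat.sSup_mem (Set.range_nonempty g) hbdd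
  have hmax : ∀ β, g β ≤ g α := fun β => hα ▸ le_csSup hbdd ⟨β, rfl⟩
  have htop : k⟮α⟯ = ⊤ := by
    rw [eq_top_iff]
    intro β _
    have : FiniteDimensional k k⟮α, β⟯ := finiteDimensional_adjoin_pair (hint α) (hint β)
    obtain ⟨γ, hγ⟩ := Field.exists_primitive_element k k⟮α, β⟯
    have h1 : Module.finrank k k⟮α, β⟯ = g (γ : F) := by
      rw [← IntermediateField.finrank_top', ← hγ,
        IntermediateField.adjoin.finrank (Algebra.IsIntegral.isIntegral γ),
        IntermediateField.minpoly_eq]
    have h2 : Module.finrank k k⟮α⟯ = g α := IntermediateField.adjoin.finrank (hint α)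
    have hle : k⟮α⟯ ≤ k⟮α, β⟯ := IntermediateField.adjoin.mono _ _ _ (by simp)
    have heq : k⟮α⟯ = k⟮α, β⟯ :=
      IntermediateField.eq_of_le_of_finrank_le hle (by rw [h1, h2]; exact hmax _)
    rw [heq]
    exact IntermediateField.subset_adjoin _ _ (by simp)
  have hfin : FiniteDimensional k k⟮α⟯ := IntermediateField.adjoin.finiteDimensional (hint α)
  have hfin' : FiniteDimensional k (⊤ : IntermediateField k F) := htop ▸ hfin
  have hF : FiniteDimensional k F := by
    exact (IntermediateField.topEquiv (F := k) (E := F)).toLinearEquiv.finiteDimensional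
  refine ⟨hF, ?_⟩
  rw [← IntermediateField.finrank_top', ← htop, IntermediateField.adjoin.finrank (hint α)]
  exact hdeg α

end Bounded

section Count

variable {k F L : Type*} [Field k] [Field F] [Field L] [Algebra k F] [Algebra k L]
variable {ι : Type*} [Fintype ι]

/-- distinct embeddings are at most `[F : k]` many -/
theorem card_le_finrank_of_injective [FiniteDimensional k F] (σ : ι → (F →ₐ[k] L))
    (hσ : Function.Injective σ) : Fintype.card ι ≤ Module.finrank k F := by
  have hli : LinearIndependent L (fun i => (σ i).toLinearMap) :=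
    (linearIndependent_toLinearMap k F L).comp σ hσ
  have h1 := hli.fintype_card_le_finrank
  rwa [Module.finrank_linearMap, Module.finrank_self, mul_one] at h1

end Count

section Main

variable {k F L : Type*} [Field k] [Field F] [Field L] [Algebra k F] [Algebra k L] [CharZero k]
variable {ι : Type*} [Fintype ι]

/-- The hypothesis package: a finite family of pairwise distinct `k`-embeddings `σ i : F → L`,
a subring `R` generating `F` over `k` as a field, such that the "traces" `∑ i, σ i a` of the
elements of `R` lie in `k`. -/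
structure EmbFamily (σ : ι → (F →ₐ[k] L)) (R : Subring F) : Prop where
  inj : Function.Injective σ
  gen : IntermediateField.adjoin k (R : Set F) = ⊤
  tr : ∀ a ∈ R, ∑ i, σ i a ∈ (algebraMap k L).range

/-- the sum of the embeddings as a `k`-linear map -/
noncomputable def trL (σ : ι → (F →ₐ[k] L)) : F →ₗ[k] L := ∑ i, (σ i).toLinearMap

omit [CharZero k] in
@[simp] theorem trL_apply (σ : ι → (F →ₐ[k] L)) (f : F) : trL σ f = ∑ i, σ i f := by
  simp [trL]

namespace EmbFamily

variable {σ : ι → (F →ₐ[k] L)} {R : Subring F}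

omit [CharZero k] in
theorem psum_mem_of_mem (h : EmbFamily σ R) {a : F} (ha : a ∈ R) (s : ℕ) :
    ∑ i, σ i a ^ s ∈ (algebraMap k L).range := by
  have := h.tr (a ^ s) (R.pow_mem ha s)
  simpa only [map_pow] using this

theorem charZero_L (_h : EmbFamily σ R) : CharZero L :=
  charZero_of_injective_algebraMap (algebraMap k L).injective

variable [Nonempty ι]

omit [CharZero k] in
theorem isIntegral_of_lift (f : F) {p : k[X]} (hp : p.Monic)
    (hpm : p.map (algebraMap k L) = ∏ i, (X - C (σ i f))) : IsIntegral k f ∧ aeval f p = 0 := by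
  obtain ⟨i₀⟩ := ‹Nonempty ι›
  have h1 : aeval (σ i₀ f) p = 0 := by
    rw [aeval_def, ← eval_map, hpm, eval_prod]
    exact Finset.prod_eq_zero (Finset.mem_univ i₀) (by simp)
  have h2 : σ i₀ (aeval f p) = 0 := by rw [← aeval_algHom_apply]; exact h1
  have h3 : aeval f p = 0 := (map_eq_zero (σ i₀)).mp h2
  exact ⟨⟨p, hp, h3⟩, h3⟩

theorem isIntegral_of_mem (h : EmbFamily σ R) {a : F} (ha : a ∈ R) : IsIntegral k a := by
  have := h.charZero_L
  obtain ⟨p, hp, -, hpm⟩ := exists_monic_lift_of_psum_mem (k := k) (fun i => σ i a)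
    (fun s _ => h.psum_mem_of_mem ha s)
  exact (isIntegral_of_lift a hp hpm).1

theorem span_eq_top (h : EmbFamily σ R) : Submodule.span k (R : Set F) = ⊤ := by
  have h1 : (IntermediateField.adjoin k (R : Set F)).toSubalgebra = Algebra.adjoin k (R : Set F) :=
    IntermediateField.adjoin_toSubalgebra_of_isAlgebraic fun x hx => (h.isIntegral_of_mem hx).isAlgebraic
  have h2 : Subalgebra.toSubmodule (Algebra.adjoin k (R : Set F)) =
      Submodule.span k (R : Set F) := by
    rw [Algebra.adjoin_eq_span]
    congr 1
    exact congrArg _ (Submonoid.closure_eq R.toSubmonoid)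
  rw [← h2, ← h1, h.gen]
  rfl

theorem trL_mem (h : EmbFamily σ R) (f : F) : trL σ f ∈ (algebraMap k L).range := by
  have hle : Submodule.span k (R : Set F) ≤
      (LinearMap.range (Algebra.linearMap k L)).comap (trL σ) := by
    refine Submodule.span_le.mpr fun a ha => ?_
    obtain ⟨c, hc⟩ := h.tr a ha
    exact ⟨c, by simpa using hc⟩
  have hf : f ∈ Submodule.span k (R : Set F) := by rw [h.span_eq_top]; trivial
  obtain ⟨c, hc⟩ := hle hf
  exact ⟨c, by simpa using hc⟩

/-- **(1)** every `f : F` has a "characteristic polynomial" over `k` whose image in `L[X]` is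
`∏ (X - σ i f)`. -/
theorem exists_charPoly (h : EmbFamily σ R) (f : F) :
    ∃ p : k[X], p.Monic ∧ p.natDegree = Fintype.card ι ∧
      p.map (algebraMap k L) = ∏ i, (X - C (σ i f)) := by
  have := h.charZero_L
  refine exists_monic_lift_of_psum_mem (k := k) (fun i => σ i f) fun s _ => ?_
  have := h.trL_mem (f ^ s)
  simpa only [trL_apply, map_pow] using this

theorem isIntegral (h : EmbFamily σ R) (f : F) : IsIntegral k f := by
  obtain ⟨p, hp, -, hpm⟩ := h.exists_charPoly f
  exact (isIntegral_of_lift f hp hpm).1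

theorem natDegree_minpoly_le (h : EmbFamily σ R) (f : F) :
    (minpoly k f).natDegree ≤ Fintype.card ι := by
  obtain ⟨p, hp, hdeg, hpm⟩ := h.exists_charPoly f
  rw [← hdeg]
  exact natDegree_le_of_dvd (minpoly.dvd k f (isIntegral_of_lift f hp hpm).2) hp.ne_zero


/-- **(2a)** `F` is finite over `k`. -/
theorem finiteDimensional (h : EmbFamily σ R) : FiniteDimensional k F :=
  (finiteDimensional_of_natDegree_minpoly_le (Fintype.card ι) h.isIntegral
    h.natDegree_minpoly_le).1

/-- **(2b)** `[F : k]` is the number of embeddings. -/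
theorem finrank_eq_card (h : EmbFamily σ R) : Module.finrank k F = Fintype.card ι := by
  have := h.finiteDimensional
  exact le_antisymm (finiteDimensional_of_natDegree_minpoly_le (Fintype.card ι) h.isIntegral
    h.natDegree_minpoly_le).2 (card_le_finrank_of_injective σ h.inj)

/-- **(3)** the `σ i` are all the `k`-embeddings of `F` into `L`. -/
theorem algHom_mem_range (h : EmbFamily σ R) (τ : F →ₐ[k] L) : ∃ i, τ = σ i := by
  by_contra hne'
  have hne : ∀ i, τ ≠ σ i := fun i hi => hne' ⟨i, hi⟩
  have := h.finiteDimensional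
  let σ' : Option ι → (F →ₐ[k] L) := fun o => o.elim τ σ
  have hinj : Function.Injective σ' := by
    rintro (_ | i) (_ | j) hij
    · rfl
    · exact absurd hij (hne j)
    · exact absurd hij.symm (hne i)
    · exact congrArg some (h.inj hij)
  have h1 := card_le_finrank_of_injective σ' hinj
  rw [Fintype.card_option, h.finrank_eq_card] at h1
  omega

section AlgClosure

variable (h : EmbFamily σ R)
include h

/-- the embeddings into an algebraic closure of `L` are the `σ i` followed by `L → L̄` -/
theorem bijective_comp_algebraicClosure :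
    Function.Bijective fun i : ι =>
      (IsScalarTower.toAlgHom k L (AlgebraicClosure L)).comp (σ i) := by
  have := h.finiteDimensional
  have hinj : Function.Injective fun i : ι =>
      (IsScalarTower.toAlgHom k L (AlgebraicClosure L)).comp (σ i) := by
    intro i j hij
    refine h.inj (AlgHom.ext fun f => ?_)
    have := congrArg (fun φ : F →ₐ[k] AlgebraicClosure L => φ f) hij
    exact (algebraMap L (AlgebraicClosure L)).injective this
  have : Algebra.IsAlgebraic k F := ⟨fun f => (h.isIntegral f).isAlgebraic⟩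
  refine (Fintype.bijective_iff_injective_and_card _).mpr ⟨hinj, ?_⟩
  rw [AlgHom.card k F (AlgebraicClosure L), h.finrank_eq_card]

/-- **(4a)** norm formula -/
theorem algebraMap_norm_eq_prod (f : F) :
    algebraMap k L (Algebra.norm k f) = ∏ i, σ i f := by
  have := h.finiteDimensional
  have : Algebra.IsAlgebraic k F := ⟨fun f => (h.isIntegral f).isAlgebraic⟩
  apply (algebraMap L (AlgebraicClosure L)).injective
  rw [← IsScalarTower.algebraMap_apply, Algebra.norm_eq_prod_embeddings k (AlgebraicClosure L) f,
    map_prod]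
  exact (Fintype.prod_bijective _ h.bijective_comp_algebraicClosure _ _ fun i => rfl).symm

/-- **(4b)** trace formula -/
theorem algebraMap_trace_eq_sum (f : F) :
    algebraMap k L (Algebra.trace k F f) = ∑ i, σ i f := by
  have := h.finiteDimensional
  have : Algebra.IsAlgebraic k F := ⟨fun f => (h.isIntegral f).isAlgebraic⟩
  apply (algebraMap L (AlgebraicClosure L)).injective
  rw [← IsScalarTower.algebraMap_apply, trace_eq_sum_embeddings (AlgebraicClosure L), map_sum]
  exact (Fintype.sum_bijective _ h.bijective_comp_algebraicClosure _ _ fun i => rfl).symm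

end AlgClosure

end EmbFamily

omit [CharZero k] in
/-- **(5)** the trace hypothesis follows from the hypothesis on all coefficients of
`∏ (X - σ i a)` (the shape of `CuspDatum.sym`). -/
theorem EmbFamily.of_coeff [Nonempty ι] {σ : ι → (F →ₐ[k] L)} {R : Subring F}
    (hinj : Function.Injective σ) (hgen : IntermediateField.adjoin k (R : Set F) = ⊤)
    (hsym : ∀ a ∈ R, ∀ m, (∏ i, (X - C (σ i a))).coeff m ∈ (algebraMap k L).range) :
    EmbFamily σ R where
  inj := hinj
  gen := hgen
  tr a ha := by
    have hpos : 0 < (Finset.univ : Finset ι).card := Finset.card_pos.mpr Finset.univ_nonempty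
    have h1 := Polynomial.prod_X_sub_C_coeff_card_pred (Finset.univ : Finset ι)
      (fun i => σ i a) hpos
    have h2 := hsym a ha ((Finset.univ : Finset ι).card - 1)
    rw [h1] at h2
    obtain ⟨c, hc⟩ := h2
    exact ⟨-c, by rw [map_neg, hc, neg_neg]⟩

end Main

/-! ### Wrapper: base field `K`, embeddings only `K`-linear but agreeing on an element `j`

This is the shape in which the modular application produces the data: `K` a field of
characteristic zero, `F ⊇ K(j)`, `σ i : F →ₐ[K] L` with `σ i j = σ i₀ j`. -/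

section Wrapper

variable {K F L : Type*} [Field K] [Field F] [Field L] [Algebra K F] [Algebra K L] [CharZero K]
variable {ι : Type*} [Fintype ι]

omit [CharZero K] in
/-- two `K`-algebra maps out of `F` which agree on `j` agree on `K⟮j⟯` -/
theorem algHom_eq_on_adjoin_simple (φ ψ : F →ₐ[K] L) (j : F) (hj : φ j = ψ j)
    (c : K⟮j⟯) : φ c = ψ c := by
  have hle : K⟮j⟯ ≤ IntermediateField.mk (AlgHom.equalizer φ ψ) (fun x hx => by
      show φ x⁻¹ = ψ x⁻¹
      rw [map_inv₀, map_inv₀, show φ x = ψ x from hx]) := by
    rw [IntermediateField.adjoin_le_iff]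
    rintro x rfl
    exact hj
  exact hle c.2

variable (j : F) (σ : ι → (F →ₐ[K] L)) (i₀ : ι)

/-- the `K⟮j⟯`-algebra structure on `L` given by `σ i₀` -/
@[reducible] noncomputable def algebraOfEmb : Algebra K⟮j⟯ L :=
  ((σ i₀ : F →+* L).comp (algebraMap K⟮j⟯ F)).toAlgebra

/-- the embeddings as `K⟮j⟯`-algebra maps (for the structure `algebraOfEmb j σ i₀` on `L`) -/
noncomputable def liftEmb (hj : ∀ i, σ i j = σ i₀ j) (i : ι) :
    letI := algebraOfEmb j σ i₀
    F →ₐ[K⟮j⟯] L :=
  letI := algebraOfEmb j σ i₀
  { (σ i : F →+* L) with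
    commutes' := fun c => algHom_eq_on_adjoin_simple (σ i) (σ i₀) j (hj i) c }

omit [Fintype ι] [CharZero K] in
theorem liftEmb_apply (hj : ∀ i, σ i j = σ i₀ j) (i : ι) (f : F) :
    liftEmb j σ i₀ hj i f = σ i f := rfl

omit [CharZero K] in
/-- The hypotheses in the `K`-linear shape give an `EmbFamily` over `K⟮j⟯`. -/
theorem embFamily_lift (hj : ∀ i, σ i j = σ i₀ j) (hinj : Function.Injective σ)
    (R : Subring F) (hgen : IntermediateField.adjoin K (R : Set F) = ⊤)
    (htr : ∀ a ∈ R, ∃ c : K⟮j⟯, ∑ i, σ i a = σ i₀ c) :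
    letI := algebraOfEmb j σ i₀
    EmbFamily (liftEmb j σ i₀ hj) R := by
  letI := algebraOfEmb j σ i₀
  refine ⟨fun i i' h => hinj (AlgHom.ext fun f => ?_), ?_, fun a ha => ?_⟩
  · have := congrArg (fun φ : F →ₐ[K⟮j⟯] L => φ f) h
    exact this
  · rw [eq_top_iff]
    intro x _hxtop
    clear _hxtop
    have hx : x ∈ IntermediateField.adjoin K (R : Set F) := by rw [hgen]; trivial
    induction hx using IntermediateField.adjoin_induction with
    | mem y hy => exact IntermediateField.subset_adjoin _ _ hy
    | algebraMap c =>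
      have : algebraMap K F c = algebraMap K⟮j⟯ F (algebraMap K K⟮j⟯ c) := rfl
      rw [this]
      exact IntermediateField.algebraMap_mem _ _
    | add y z _ _ hy hz => exact add_mem hy hz
    | inv y _ hy => exact inv_mem hy
    | mul y z _ _ hy hz => exact mul_mem hy hz
  · obtain ⟨c, hc⟩ := htr a ha
    exact ⟨c, hc.symm⟩

variable {j σ i₀}
variable (hj : ∀ i, σ i j = σ i₀ j) (hinj : Function.Injective σ)
  (R : Subring F) (hgen : IntermediateField.adjoin K (R : Set F) = ⊤)
  (htr : ∀ a ∈ R, ∃ c : K⟮j⟯, ∑ i, σ i a = σ i₀ c)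
include hj hinj hgen htr

/-- **(W2)** `[F : K(j)] = card ι` -/
theorem finrank_adjoin_simple_eq_card [Nonempty ι] :
    Module.finrank K⟮j⟯ F = Fintype.card ι := by
  letI := algebraOfEmb j σ i₀
  exact (embFamily_lift j σ i₀ hj hinj R hgen htr).finrank_eq_card

/-- **(W2')** `F` is finite over `K(j)` -/
theorem finiteDimensional_adjoin_simple [Nonempty ι] : FiniteDimensional K⟮j⟯ F := by
  letI := algebraOfEmb j σ i₀
  exact (embFamily_lift j σ i₀ hj hinj R hgen htr).finiteDimensional

/-- **(W4a)** norm formula: the expansion at `i₀` of the norm is the product of all expansions -/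
theorem emb_norm_eq_prod [Nonempty ι] (f : F) :
    σ i₀ ((Algebra.norm K⟮j⟯ f : K⟮j⟯) : F) = ∏ i, σ i f := by
  letI := algebraOfEmb j σ i₀
  exact (embFamily_lift j σ i₀ hj hinj R hgen htr).algebraMap_norm_eq_prod f

/-- **(W4b)** trace formula -/
theorem emb_trace_eq_sum [Nonempty ι] (f : F) :
    σ i₀ ((Algebra.trace K⟮j⟯ F f : K⟮j⟯) : F) = ∑ i, σ i f := by
  letI := algebraOfEmb j σ i₀
  exact (embFamily_lift j σ i₀ hj hinj R hgen htr).algebraMap_trace_eq_sum f

/-- **(W1)** characteristic polynomial -/
theorem exists_charPoly_adjoin_simple [Nonempty ι] (f : F) :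
    ∃ p : K⟮j⟯[X], p.Monic ∧ p.natDegree = Fintype.card ι ∧
      p.map ((σ i₀ : F →+* L).comp (algebraMap K⟮j⟯ F)) = ∏ i, (X - C (σ i f)) := by
  letI := algebraOfEmb j σ i₀
  exact (embFamily_lift j σ i₀ hj hinj R hgen htr).exists_charPoly f

/-- **(W3)** every `K`-embedding of `F` into `L` which agrees with `σ i₀` on `j` is one of
the `σ i`. -/
theorem algHom_mem_range_of_fixes [Nonempty ι] (τ : F →ₐ[K] L) (hτ : τ j = σ i₀ j) :
    ∃ i, τ = σ i := by
  letI := algebraOfEmb j σ i₀
  let τ' : F →ₐ[K⟮j⟯] L :=
    { (τ : F →+* L) with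
      commutes' := fun c => algHom_eq_on_adjoin_simple τ (σ i₀) j hτ c }
  obtain ⟨i, hi⟩ := (embFamily_lift j σ i₀ hj hinj R hgen htr).algHom_mem_range τ'
  refine ⟨i, AlgHom.ext fun f => ?_⟩
  have := congrArg (fun φ : F →ₐ[K⟮j⟯] L => φ f) hi
  exact this

end Wrapper

end Fermat.Agent.S24_helper66
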