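import Mathlib
import Fermat.Agent.S24_helper66.NormEmb

/-!
# Norm formula from a full family of embeddings, when the degree is already known

Companion to `NormEmb.lean`.  There the degree `[F : k]` was *derived* from a family of distinct
embeddings whose traces lie in `k`.  Here the degree is known (`Fintype.card ι = [F : k]`) and
the norm / trace formulas for **any** family of `card ι` distinct embeddings follow without any
trace hypothesis.  (Application: once `[F_N : ℚ̄(j)] = ψ(N)` is known from the cusp expansions,
the norm formula holds for the `ψ(N)` embeddings `f ↦ f̃ ∘ g⁻¹` into meromorphic functions or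
germs at an interior point, with no further analytic input.)

A ring-hom form (no algebra structure on the target needed) is given at the end.
-/

set_option autoImplicit false

open Polynomial IntermediateField

namespace Fermat.Agent.S24_helper66

section Abstract

variable {k F L : Type*} [Field k] [Field F] [Field L] [Algebra k F] [Algebra k L]
variable [FiniteDimensional k F] [Algebra.IsSeparable k F]
variable {ι : Type*} [Fintype ι] (σ : ι → (F →ₐ[k] L)) (hinj : Function.Injective σ)
  (hcard : Fintype.card ι = Module.finrank k F)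
include hinj hcard

omit [Algebra.IsSeparable k F] in
/-- a family of `[F : k]` distinct embeddings contains every embedding -/
theorem algHom_mem_range_of_card (τ : F →ₐ[k] L) : ∃ i, τ = σ i := by
  by_contra hne'
  have hne : ∀ i, τ ≠ σ i := fun i hi => hne' ⟨i, hi⟩
  let σ' : Option ι → (F →ₐ[k] L) := fun o => o.elim τ σ
  have hinj' : Function.Injective σ' := by
    rintro (_ | i) (_ | j) hij
    · rfl
    · exact absurd hij (hne j)
    · exact absurd hij.symm (hne i)
    · exact congrArg some (hinj hij)
  have h1 := card_le_finrank_of_injective σ' hinj'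
  rw [Fintype.card_option, hcard] at h1
  omega

/-- the embeddings into an algebraic closure of `L` are the `σ i` followed by `L → L̄` -/
theorem bijective_comp_algebraicClosure_of_card :
    Function.Bijective fun i : ι =>
      (IsScalarTower.toAlgHom k L (AlgebraicClosure L)).comp (σ i) := by
  have hinj' : Function.Injective fun i : ι =>
      (IsScalarTower.toAlgHom k L (AlgebraicClosure L)).comp (σ i) := by
    intro i j hij
    refine hinj (AlgHom.ext fun f => ?_)
    have := congrArg (fun φ : F →ₐ[k] AlgebraicClosure L => φ f) hij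
    exact (algebraMap L (AlgebraicClosure L)).injective this
  refine (Fintype.bijective_iff_injective_and_card _).mpr ⟨hinj', ?_⟩
  rw [AlgHom.card k F (AlgebraicClosure L), hcard]

/-- norm formula -/
theorem algebraMap_norm_eq_prod_of_card (f : F) :
    algebraMap k L (Algebra.norm k f) = ∏ i, σ i f := by
  apply (algebraMap L (AlgebraicClosure L)).injective
  rw [← IsScalarTower.algebraMap_apply, Algebra.norm_eq_prod_embeddings k (AlgebraicClosure L) f,
    map_prod]
  exact (Fintype.prod_bijective _ (bijective_comp_algebraicClosure_of_card σ hinj hcard) _ _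
    fun i => rfl).symm

/-- trace formula -/
theorem algebraMap_trace_eq_sum_of_card (f : F) :
    algebraMap k L (Algebra.trace k F f) = ∑ i, σ i f := by
  apply (algebraMap L (AlgebraicClosure L)).injective
  rw [← IsScalarTower.algebraMap_apply, trace_eq_sum_embeddings (AlgebraicClosure L), map_sum]
  exact (Fintype.sum_bijective _ (bijective_comp_algebraicClosure_of_card σ hinj hcard) _ _
    fun i => rfl).symm

end Abstract

/-! ### ring-hom form over `K⟮j⟯` -/

section RingHomForm

variable {K F L : Type*} [Field K] [Field F] [Field L] [Algebra K F] [CharZero K]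
variable {ι : Type*} [Fintype ι]

omit [CharZero K] [Fintype ι] in
/-- two ring homs out of `F` which agree on `K` and at `j` agree on `K⟮j⟯` -/
theorem ringHom_eq_on_adjoin_simple (φ ψ : F →+* L) (j : F)
    (hK : ∀ c : K, φ (algebraMap K F c) = ψ (algebraMap K F c)) (hj : φ j = ψ j)
    (c : K⟮j⟯) : φ c = ψ c := by
  let E : IntermediateField K F :=
    { carrier := {x | φ x = ψ x}
      mul_mem' := fun {a b} ha hb => by
        show φ (a * b) = ψ (a * b)
        rw [map_mul, map_mul, show φ a = ψ a from ha, show φ b = ψ b from hb]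
      one_mem' := by show φ 1 = ψ 1; rw [map_one, map_one]
      add_mem' := fun {a b} ha hb => by
        show φ (a + b) = ψ (a + b)
        rw [map_add, map_add, show φ a = ψ a from ha, show φ b = ψ b from hb]
      zero_mem' := by show φ 0 = ψ 0; rw [map_zero, map_zero]
      algebraMap_mem' := hK
      inv_mem' := fun a ha => by
        show φ a⁻¹ = ψ a⁻¹
        rw [map_inv₀, map_inv₀, show φ a = ψ a from ha] }
  have hle : K⟮j⟯ ≤ E := by
    rw [IntermediateField.adjoin_le_iff]
    rintro x rfl
    exact hj
  exact hle c.2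

variable (j : F) (ρ : ι → (F →+* L)) (i₀ : ι)
  (hK : ∀ i (c : K), ρ i (algebraMap K F c) = ρ i₀ (algebraMap K F c))
  (hj : ∀ i, ρ i j = ρ i₀ j) (hinj : Function.Injective ρ)
  [FiniteDimensional K⟮j⟯ F] (hcard : Fintype.card ι = Module.finrank K⟮j⟯ F)

/-- the `K⟮j⟯`-algebra structure on `L` given by `ρ i₀` -/
@[reducible] noncomputable def algebraOfRingHom (K : Type*) {F L : Type*} [Field K] [Field F]
    [Field L] [Algebra K F] {ι : Type*} (j : F) (ρ : ι → (F →+* L)) (i₀ : ι) : Algebra K⟮j⟯ L :=
  ((ρ i₀).comp (algebraMap K⟮j⟯ F)).toAlgebra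

/-- the ring homs as `K⟮j⟯`-algebra maps -/
noncomputable def liftRingHom
    (hK : ∀ i (c : K), ρ i (algebraMap K F c) = ρ i₀ (algebraMap K F c))
    (hj : ∀ i, ρ i j = ρ i₀ j) (i : ι) :
    letI := algebraOfRingHom K j ρ i₀
    F →ₐ[K⟮j⟯] L :=
  letI := algebraOfRingHom K j ρ i₀
  { ρ i with
    commutes' := fun c => ringHom_eq_on_adjoin_simple (ρ i) (ρ i₀) j (hK i) (hj i) c }

include hK hj hinj hcard

omit [CharZero K] [Fintype ι] [FiniteDimensional K⟮j⟯ F] hcard in
theorem liftRingHom_injective :
    letI := algebraOfRingHom K j ρ i₀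
    Function.Injective (liftRingHom j ρ i₀ hK hj) := by
  letI := algebraOfRingHom K j ρ i₀
  intro i i' h
  refine hinj (RingHom.ext fun f => ?_)
  have := congrArg (fun φ : F →ₐ[K⟮j⟯] L => φ f) h
  exact this

/-- **Norm formula, ring-hom form.**  If `[F : K(j)] = card ι` and `ρ i : F →+* L` are pairwise
distinct ring homs which agree on `K` and at `j`, then `ρ i₀ (N_{F/K(j)} f) = ∏ i, ρ i f`. -/
theorem ringHom_norm_eq_prod (f : F) :
    ρ i₀ ((Algebra.norm K⟮j⟯ f : K⟮j⟯) : F) = ∏ i, ρ i f := by
  letI := algebraOfRingHom K j ρ i₀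
  exact algebraMap_norm_eq_prod_of_card (liftRingHom j ρ i₀ hK hj)
    (liftRingHom_injective j ρ i₀ hK hj hinj) hcard f

/-- trace formula, ring-hom form -/
theorem ringHom_trace_eq_sum (f : F) :
    ρ i₀ ((Algebra.trace K⟮j⟯ F f : K⟮j⟯) : F) = ∑ i, ρ i f := by
  letI := algebraOfRingHom K j ρ i₀
  exact algebraMap_trace_eq_sum_of_card (liftRingHom j ρ i₀ hK hj)
    (liftRingHom_injective j ρ i₀ hK hj hinj) hcard f

omit [CharZero K] in
/-- every ring hom `F →+* L` agreeing with `ρ i₀` on `K` and at `j` is one of the `ρ i` -/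
theorem ringHom_mem_range_of_card (τ : F →+* L)
    (hτK : ∀ c : K, τ (algebraMap K F c) = ρ i₀ (algebraMap K F c)) (hτj : τ j = ρ i₀ j) :
    ∃ i, τ = ρ i := by
  letI := algebraOfRingHom K j ρ i₀
  let τ' : F →ₐ[K⟮j⟯] L :=
    { τ with commutes' := fun c => ringHom_eq_on_adjoin_simple τ (ρ i₀) j hτK hτj c }
  obtain ⟨i, hi⟩ := algHom_mem_range_of_card (liftRingHom j ρ i₀ hK hj)
    (liftRingHom_injective j ρ i₀ hK hj hinj) hcard τ'
  refine ⟨i, RingHom.ext fun f => ?_⟩
  have := congrArg (fun φ : F →ₐ[K⟮j⟯] L => φ f) hi
  exact this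

end RingHomForm

end Fermat.Agent.S24_helper66
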