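import Fermat.Agent.S24_helper66.CosetSep
import Fermat.Agent.S20_helper41.JInjective
import Fermat.Agent.S28.CuspExpansion2

/-!
# Separation of the cosets of `Γ₀(N)` by `j(N τ)` — instantiation

`J := jFun = E₄³/Δ` (T28), `dil := dilate N` (T28), `J2 :=` injectivity of `j` modulo `SL₂(ℤ)`
(helper41).  The `ψ(N)` functions `τ ↦ j(N (g⁻¹ τ))`, `g ∈ SL₂(ℤ)/Γ₀(N)`, are pairwise distinct,
even as germs at any point.
-/

set_option autoImplicit false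

namespace Fermat.Agent.S24_helper66.CosetSep

open UpperHalfPlane CongruenceSubgroup Fermat.Agent.S28 Fermat.Agent.S28.CuspExp
open scoped MatrixGroups Topology

/-- `j = E₄³/Δ` separates the `SL₂(ℤ)`-orbits -/
theorem jFun_separates (τ τ' : ℍ) (h : jFun τ = jFun τ') : ∃ δ : SL(2, ℤ), δ • τ = τ' :=
  Fermat.Agent.S20_helper41.jInv_eq_iff.mp h

variable {N : ℕ} (hN : 0 < N)

theorem coe_dilate' (z : ℍ) : (dilate N hN z : ℂ) = (N : ℂ) * z := rfl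

/-- if `j(N (γ τ)) = j(N τ)` for all `τ` then `γ ∈ Γ₀(N)` -/
theorem mem_Gamma0_of_jDil_smul_eq (γ : SL(2, ℤ)) (h : ∀ τ, jDil N hN (γ • τ) = jDil N hN τ) :
    γ ∈ Gamma0 N :=
  mem_Gamma0_of_forall jFun_separates hN.ne' (dilate N hN) (coe_dilate' hN) γ h

/-- the same, assuming the equality only near one point -/
theorem mem_Gamma0_of_jDil_smul_eventuallyEq (γ : SL(2, ℤ)) (z₀ : ℍ)
    (h : ∀ᶠ τ in 𝓝 z₀, jDil N hN (γ • τ) = jDil N hN τ) : γ ∈ Gamma0 N :=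
  mem_Gamma0_of_eventually jFun_separates hN.ne' (dilate N hN) (coe_dilate' hN) γ z₀ h

/-- converse (for completeness): `Γ₀(N)` fixes `j(N τ)` -/
theorem jDil_smul_eq_iff_mem_Gamma0 (γ : SL(2, ℤ)) :
    (∀ τ, jDil N hN (γ • τ) = jDil N hN τ) ↔ γ ∈ Gamma0 N :=
  ⟨mem_Gamma0_of_jDil_smul_eq hN γ, fun hγ τ => jDil_smul_of_mem_Gamma0 hN dvd_rfl hγ τ⟩

/-- **Distinctness of the conjugates of `j(N τ)`** (left cosets `g Γ₀(N)`). -/
theorem coset_eq_of_jDil_eq (g g' : SL(2, ℤ))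
    (h : ∀ τ, jDil N hN (g⁻¹ • τ) = jDil N hN (g'⁻¹ • τ)) :
    (g : SL(2, ℤ) ⧸ Gamma0 N) = g' :=
  coset_eq_of_forall_eq jFun_separates hN.ne' (dilate N hN) (coe_dilate' hN) g g' h

/-- distinctness of the germs at any point `z₀` -/
theorem coset_eq_of_jDil_eventuallyEq (g g' : SL(2, ℤ)) (z₀ : ℍ)
    (h : ∀ᶠ τ in 𝓝 z₀, jDil N hN (g⁻¹ • τ) = jDil N hN (g'⁻¹ • τ)) :
    (g : SL(2, ℤ) ⧸ Gamma0 N) = g' :=
  coset_eq_of_eventually_eq jFun_separates hN.ne' (dilate N hN) (coe_dilate' hN) g g' z₀ h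

/-- the iff form: the function `τ ↦ j(N (g⁻¹ τ))` depends exactly on the coset `g Γ₀(N)` -/
theorem jDil_inv_smul_eq_iff (g g' : SL(2, ℤ)) :
    (∀ τ, jDil N hN (g⁻¹ • τ) = jDil N hN (g'⁻¹ • τ)) ↔ (g : SL(2, ℤ) ⧸ Gamma0 N) = g' := by
  refine ⟨coset_eq_of_jDil_eq hN g g', fun h τ => ?_⟩
  rw [QuotientGroup.eq] at h
  have h2 : g'⁻¹ * g ∈ Gamma0 N := by
    have := inv_mem h
    rwa [mul_inv_rev, inv_inv] at this
  have := jDil_smul_of_mem_Gamma0 hN (dvd_refl N) h2 (g⁻¹ • τ)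
  rw [← mul_smul, mul_assoc, mul_inv_cancel, mul_one] at this
  exact this.symm

/-- right-coset version: `τ ↦ j(N (g τ))` determines `Γ₀(N) g` -/
theorem mul_inv_mem_Gamma0_of_jDil_eq (g g' : SL(2, ℤ))
    (h : ∀ τ, jDil N hN (g • τ) = jDil N hN (g' • τ)) : g * g'⁻¹ ∈ Gamma0 N :=
  rightCoset_of_forall_eq jFun_separates hN.ne' (dilate N hN) (coe_dilate' hN) g g' h

end Fermat.Agent.S24_helper66.CosetSep
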