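import Mathlib

/-!
# Separation of the cosets of `Γ₀(N)` by `τ ↦ j(N τ)`

If `J : ℍ → ℂ` separates the `SL₂(ℤ)`-orbits, `γ ∈ SL₂(ℤ)` and `J (N (γ τ)) = J (N τ)` for
uncountably many `τ`, then `γ ∈ Γ₀(N)`.  Hence the functions `τ ↦ J (N (g⁻¹ τ))`,
`g ∈ SL₂(ℤ)/Γ₀(N)`, are pairwise distinct.
-/

set_option autoImplicit false

namespace Fermat.Agent.S24_helper66.CosetSep

open UpperHalfPlane CongruenceSubgroup Polynomial
open scoped MatrixGroups

/-- a complex quadratic with infinitely many roots has zero coefficients -/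
theorem coeffs_eq_zero_of_infinite_roots {α β γ : ℂ} {S : Set ℂ} (hS : S.Infinite)
    (h : ∀ z ∈ S, α * z ^ 2 + β * z + γ = 0) : α = 0 ∧ β = 0 ∧ γ = 0 := by
  set p : ℂ[X] := C α * X ^ 2 + C β * X + C γ with hp
  have hp0 : p = 0 := by
    apply Polynomial.eq_zero_of_infinite_isRoot
    refine hS.mono fun z hz => ?_
    show p.IsRoot z
    rw [Polynomial.IsRoot.def, hp]
    simpa using h z hz
  have h2 : p.coeff 2 = α := by
    rw [hp]; simp
  have h1 : p.coeff 1 = β := by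
    rw [hp]; simp [Polynomial.coeff_C, Polynomial.coeff_X_pow]
  have h0 : p.coeff 0 = γ := by
    rw [hp]; simp [Polynomial.coeff_X, Polynomial.coeff_C, Polynomial.coeff_X_pow]
  rw [hp0] at h2 h1 h0
  simp only [Polynomial.coeff_zero] at h2 h1 h0
  exact ⟨h2.symm, h1.symm, h0.symm⟩

/-- the integral core: `δ · diag(N,1)` and `diag(N,1) · γ` induce the same Möbius map
only if `N ∣ γ₁₀` -/
theorem dvd_of_moebius_coeffs {N a b c d p q r s : ℤ} (hδ : a * d - b * c = 1)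
    (hγ : p * s - q * r = 1) (hN : N ≠ 0)
    (E1 : a * N * r = N * p * (c * N))
    (E2 : a * N * s + b * r = N * (p * d + q * (c * N))) : N ∣ r := by
  have E1' : a * r = N * p * c := by
    apply mul_left_cancel₀ hN
    linear_combination E1
  set ε : ℤ := s * a - q * c * N with hε
  have C1 : r * ε = c * N := by
    rw [hε]; linear_combination s * E1' + N * c * hγ
  have C2 : N * ε = N * p * d - b * r := by
    rw [hε]; linear_combination E2
  have C3 : ε * ε = 1 := by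
    apply mul_left_cancel₀ hN
    have : N * (ε * ε) - N * 1 = 0 := by
      have h1 : N * (ε * ε) = ε * (N * p * d - b * r) := by rw [← C2]; ring
      have h2 : ε * (N * p * d - b * r) = N * p * d * ε - b * (c * N) := by rw [← C1]; ring
      have h3 : p * ε = a + q * (a * r - N * p * c) + a * (p * s - q * r - 1) := by
        rw [hε]; ring
      rw [h1, h2]
      have h4 : N * p * d * ε = N * d * (p * ε) := by ring
      rw [h4, h3, E1', hγ]
      linear_combination N * hδ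
    linarith
  have hr : r = ε * (c * N) := by
    calc r = r * (ε * ε) := by rw [C3, mul_one]
      _ = ε * (r * ε) := by ring
      _ = ε * (c * N) := by rw [C1]
  exact ⟨ε * c, by rw [hr]; ring⟩

theorem denom_ne_zero_of_det {c d : ℤ} (hcd : c ≠ 0 ∨ d ≠ 0) (z : ℍ) :
    (c : ℂ) * (z : ℂ) + (d : ℂ) ≠ 0 := by
  intro h
  have him : ((c : ℂ) * (z : ℂ) + (d : ℂ)).im = 0 := by rw [h]; simp
  have hre : ((c : ℂ) * (z : ℂ) + (d : ℂ)).re = 0 := by rw [h]; simp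
  simp at him hre
  have hc : c = 0 := by
    rcases him with h | h
    · exact_mod_cast h
    · exact absurd h z.im_pos.ne'
  subst hc
  simp at hre
  rcases hcd with h | h
  · exact h rfl
  · exact h hre

theorem sl2_row_ne_zero (δ : SL(2, ℤ)) : δ 1 0 ≠ 0 ∨ δ 1 1 ≠ 0 := by
  by_contra h
  rw [not_or, not_not, not_not] at h
  have hdet := Matrix.det_fin_two (δ : Matrix (Fin 2) (Fin 2) ℤ)
  rw [δ.det_coe] at hdet
  rw [h.1, h.2] at hdet
  simp at hdet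

theorem sl2_det (δ : SL(2, ℤ)) : δ 0 0 * δ 1 1 - δ 0 1 * δ 1 0 = 1 := by
  have hdet := Matrix.det_fin_two (δ : Matrix (Fin 2) (Fin 2) ℤ)
  rw [δ.det_coe] at hdet
  exact hdet.symm

theorem coe_sl2_smul (δ : SL(2, ℤ)) (z : ℍ) :
    ((δ • z : ℍ) : ℂ) = ((δ 0 0 : ℂ) * z + (δ 0 1 : ℂ)) / ((δ 1 0 : ℂ) * z + (δ 1 1 : ℂ)) := by
  rw [UpperHalfPlane.coe_specialLinearGroup_apply]
  simp

/-- **Coset separation, core form.**  If `J` separates `SL₂(ℤ)`-orbits and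
`J (N (γ τ)) = J (N τ)` for all `τ` in an uncountable set, then `γ ∈ Γ₀(N)`. -/
theorem mem_Gamma0_of_uncountable {J : ℍ → ℂ}
    (hJ : ∀ τ τ' : ℍ, J τ = J τ' → ∃ δ : SL(2, ℤ), δ • τ = τ')
    {N : ℕ} (hN : N ≠ 0) (dil : ℍ → ℍ) (hdil : ∀ z : ℍ, (dil z : ℂ) = (N : ℂ) * z)
    (γ : SL(2, ℤ)) {S : Set ℍ} (hS : ¬ S.Countable)
    (h : ∀ τ ∈ S, J (dil (γ • τ)) = J (dil τ)) : γ ∈ Gamma0 N := by
  -- one `δ` works on an uncountable subset
  have hcover : S ⊆ ⋃ δ : SL(2, ℤ), {τ | τ ∈ S ∧ δ • dil τ = dil (γ • τ)} := by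
    intro τ hτ
    obtain ⟨δ, hδ⟩ := hJ (dil τ) (dil (γ • τ)) (h τ hτ).symm
    exact Set.mem_iUnion.mpr ⟨δ, hτ, hδ⟩
  have hex : ∃ δ : SL(2, ℤ), ¬ {τ | τ ∈ S ∧ δ • dil τ = dil (γ • τ)}.Countable := by
    by_contra hall
    have hall' : ∀ δ : SL(2, ℤ), {τ | τ ∈ S ∧ δ • dil τ = dil (γ • τ)}.Countable := by
      intro δ
      by_contra hδ
      exact hall ⟨δ, hδ⟩
    have : Countable (Matrix (Fin 2) (Fin 2) ℤ) :=
      inferInstanceAs (Countable (Fin 2 → Fin 2 → ℤ))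
    have : Countable SL(2, ℤ) :=
      Function.Injective.countable (f := fun δ : SL(2, ℤ) => (δ : Matrix (Fin 2) (Fin 2) ℤ))
        Subtype.val_injective
    exact hS ((Set.countable_iUnion hall').mono hcover)
  obtain ⟨δ, hδ⟩ := hex
  set Sδ : Set ℍ := {τ | τ ∈ S ∧ δ • dil τ = dil (γ • τ)} with hSδ
  have hinf : (((↑) : ℍ → ℂ) '' Sδ).Infinite := by
    apply Set.Infinite.image (fun x _ y _ hxy => UpperHalfPlane.ext hxy)
    intro hfin
    exact hδ hfin.countable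
  -- the polynomial identity
  have hN' : (N : ℂ) ≠ 0 := by exact_mod_cast hN
  have hpoly : ∀ z ∈ ((↑) : ℍ → ℂ) '' Sδ,
      ((δ 0 0 : ℂ) * N * (γ 1 0 : ℂ) - N * (γ 0 0 : ℂ) * ((δ 1 0 : ℂ) * N)) * z ^ 2 +
        ((δ 0 0 : ℂ) * N * (γ 1 1 : ℂ) + (δ 0 1 : ℂ) * (γ 1 0 : ℂ)
          - N * ((γ 0 0 : ℂ) * (δ 1 1 : ℂ) + (γ 0 1 : ℂ) * ((δ 1 0 : ℂ) * N))) * z +
        ((δ 0 1 : ℂ) * (γ 1 1 : ℂ) - N * ((γ 0 1 : ℂ) * (δ 1 1 : ℂ))) = 0 := by
    rintro _ ⟨τ, ⟨-, hτ⟩, rfl⟩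
    have h1 := congrArg (fun w : ℍ => (w : ℂ)) hτ
    simp only [coe_sl2_smul, hdil] at h1
    have hd1 : (δ 1 0 : ℂ) * ((N : ℂ) * τ) + (δ 1 1 : ℂ) ≠ 0 := by
      have := denom_ne_zero_of_det (sl2_row_ne_zero δ) (dil τ)
      rwa [hdil] at this
    have hd2 : (γ 1 0 : ℂ) * (τ : ℂ) + (γ 1 1 : ℂ) ≠ 0 :=
      denom_ne_zero_of_det (sl2_row_ne_zero γ) τ
    rw [div_eq_iff hd1, mul_div_assoc', div_mul_eq_mul_div, eq_div_iff hd2] at h1
    linear_combination h1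
  obtain ⟨hα, hβ, -⟩ := coeffs_eq_zero_of_infinite_roots hinf hpoly
  have E1 : δ 0 0 * (N : ℤ) * γ 1 0 = (N : ℤ) * γ 0 0 * (δ 1 0 * (N : ℤ)) := by
    have : ((δ 0 0 * (N : ℤ) * γ 1 0 : ℤ) : ℂ) = (((N : ℤ) * γ 0 0 * (δ 1 0 * (N : ℤ)) : ℤ) : ℂ) := by
      push_cast
      linear_combination hα
    exact_mod_cast this
  have E2 : δ 0 0 * (N : ℤ) * γ 1 1 + δ 0 1 * γ 1 0
      = (N : ℤ) * (γ 0 0 * δ 1 1 + γ 0 1 * (δ 1 0 * (N : ℤ))) := by
    have : ((δ 0 0 * (N : ℤ) * γ 1 1 + δ 0 1 * γ 1 0 : ℤ) : ℂ)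
        = (((N : ℤ) * (γ 0 0 * δ 1 1 + γ 0 1 * (δ 1 0 * (N : ℤ))) : ℤ) : ℂ) := by
      push_cast
      linear_combination hβ
    exact_mod_cast this
  have hdvd : (N : ℤ) ∣ γ 1 0 :=
    dvd_of_moebius_coeffs (sl2_det δ) (sl2_det γ) (by exact_mod_cast hN) E1 E2
  rw [Gamma0_mem]
  exact (ZMod.intCast_zmod_eq_zero_iff_dvd _ _).mpr hdvd

/-! ### uncountable sets in `ℍ` -/

open Topology in
/-- neighbourhoods in `ℍ` are uncountable -/
theorem not_countable_of_mem_nhds {z₀ : ℍ} {S : Set ℍ} (hS : S ∈ 𝓝 z₀) : ¬ S.Countable := by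
  intro hc
  let φ : ℝ → ℍ := fun t => t +ᵥ z₀
  have hφc : Continuous φ := by
    rw [UpperHalfPlane.isEmbedding_coe.continuous_iff]
    show Continuous fun t : ℝ => ((t +ᵥ z₀ : ℍ) : ℂ)
    simp only [UpperHalfPlane.coe_vadd]
    fun_prop
  have hφi : Function.Injective φ := by
    intro t t' h
    have h' := congrArg (fun w : ℍ => (w : ℂ)) h
    simp only [φ, UpperHalfPlane.coe_vadd, add_left_inj] at h'
    exact_mod_cast h'
  have hφ0 : φ 0 = z₀ := by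
    apply UpperHalfPlane.ext
    simp [φ]
  have hpre : φ ⁻¹' S ∈ 𝓝 (0 : ℝ) := hφc.continuousAt.preimage_mem_nhds (by rw [hφ0]; exact hS)
  obtain ⟨ε, hε, hball⟩ := Metric.mem_nhds_iff.mp hpre
  have hIoo : Set.Ioo (-ε) ε ⊆ φ ⁻¹' S := by
    intro t ht
    apply hball
    rw [Metric.mem_ball, Real.dist_eq, sub_zero, abs_lt]
    exact ht
  have hcount : (Set.Ioo (-ε) ε).Countable :=
    (hc.preimage_of_injOn (hφi.injOn)).mono hIoo
  rw [Cardinal.Real.Ioo_countable_iff] at hcount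
  linarith

theorem not_countable_univ_uhp : ¬ (Set.univ : Set ℍ).Countable :=
  not_countable_of_mem_nhds (z₀ := UpperHalfPlane.I) Filter.univ_mem

/-! ### consequences -/

section Consequences

variable {J : ℍ → ℂ} (hJ : ∀ τ τ' : ℍ, J τ = J τ' → ∃ δ : SL(2, ℤ), δ • τ = τ')
  {N : ℕ} (hN : N ≠ 0) (dil : ℍ → ℍ) (hdil : ∀ z : ℍ, (dil z : ℂ) = (N : ℂ) * z)
include hJ hN hdil

/-- global form -/
theorem mem_Gamma0_of_forall (γ : SL(2, ℤ)) (h : ∀ τ, J (dil (γ • τ)) = J (dil τ)) :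
    γ ∈ Gamma0 N :=
  mem_Gamma0_of_uncountable hJ hN dil hdil γ not_countable_univ_uhp fun τ _ => h τ

open Topology in
/-- local form -/
theorem mem_Gamma0_of_eventually (γ : SL(2, ℤ)) (z₀ : ℍ)
    (h : ∀ᶠ τ in 𝓝 z₀, J (dil (γ • τ)) = J (dil τ)) : γ ∈ Gamma0 N :=
  mem_Gamma0_of_uncountable hJ hN dil hdil γ (not_countable_of_mem_nhds h) fun _ hτ => hτ

/-- **Coset form** (left cosets `g Γ₀(N)`): the functions `τ ↦ J (N (g⁻¹ τ))` determine the
coset of `g`. -/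
theorem coset_eq_of_forall_eq (g g' : SL(2, ℤ))
    (h : ∀ τ, J (dil (g⁻¹ • τ)) = J (dil (g'⁻¹ • τ))) :
    (g : SL(2, ℤ) ⧸ Gamma0 N) = g' := by
  rw [QuotientGroup.eq]
  apply mem_Gamma0_of_forall hJ hN dil hdil
  intro τ
  have := h (g' • τ)
  rw [inv_smul_smul, ← mul_smul] at this
  exact this

open Topology in
/-- coset form, local version: equality near one point suffices -/
theorem coset_eq_of_eventually_eq (g g' : SL(2, ℤ)) (z₀ : ℍ)
    (h : ∀ᶠ τ in 𝓝 z₀, J (dil (g⁻¹ • τ)) = J (dil (g'⁻¹ • τ))) :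
    (g : SL(2, ℤ) ⧸ Gamma0 N) = g' := by
  rw [QuotientGroup.eq]
  apply mem_Gamma0_of_eventually hJ hN dil hdil _ (g'⁻¹ • z₀)
  have hcont : Continuous fun τ : ℍ => g' • τ := by
    simp_rw [ModularGroup.sl_moeb]
    exact continuous_const_smul _
  have htend : Filter.Tendsto (fun τ : ℍ => g' • τ) (𝓝 (g'⁻¹ • z₀)) (𝓝 z₀) := by
    have := hcont.tendsto (g'⁻¹ • z₀)
    rwa [smul_inv_smul] at this
  filter_upwards [htend.eventually h] with τ hτ
  rw [inv_smul_smul, ← mul_smul] at hτ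
  exact hτ

/-- **Coset form** for the functions `τ ↦ J (N (g τ))` (right cosets `Γ₀(N) g`). -/
theorem rightCoset_of_forall_eq (g g' : SL(2, ℤ))
    (h : ∀ τ, J (dil (g • τ)) = J (dil (g' • τ))) : g * g'⁻¹ ∈ Gamma0 N := by
  apply mem_Gamma0_of_forall hJ hN dil hdil
  intro τ
  have := h (g'⁻¹ • τ)
  rw [smul_inv_smul, ← mul_smul] at this
  exact this

end Consequences

end Fermat.Agent.S24_helper66.CosetSep
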